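import Fermat.Agent.S48.Defs
import Fermat.Agent.S48.W2.FG

/-!
# S48 / MF : integrality, conjugate forms, finitely many conjugates

From `W2.FG` (`N ≥ 3`); for `N ≤ 2` the hypothesis `IsFormalEigen` is contradictory (`-1 ∈ Γ₁(N)`, odd weight).
-/

set_option autoImplicit false

open CongruenceSubgroup
open scoped MatrixGroups

namespace Fermat.Agent.S48.MF

/-- For `N ≤ 2` there is no formal eigenform of weight one. -/
theorem three_le_of_isFormalEigen {N : ℕ} [NeZero N] {ε : DirichletCharacter ℂ N}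
    {f : CuspForm (Gamma1 N) 1} (hf : IsFormalEigen N ε f) : 3 ≤ N := by
  by_contra hN
  have hN2 : N = 1 ∨ N = 2 := by
    have := NeZero.ne N
    omega
  have hmem : (-1 : SL(2, ℤ)) ∈ Gamma1 N := by
    rw [Gamma1_mem]
    rcases hN2 with rfl | rfl
    · exact ⟨Subsingleton.elim _ _, Subsingleton.elim _ _, Subsingleton.elim _ _⟩
    · refine ⟨?_, ?_, ?_⟩ <;> simp
  have hmem' : (-1 : GL (Fin 2) ℝ) ∈
      Subgroup.map (Matrix.SpecialLinearGroup.mapGL ℝ) (Gamma1 N) := by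
    refine ⟨-1, hmem, ?_⟩
    ext i j
    simp [Matrix.SpecialLinearGroup.mapGL_coe_matrix]
  have h0 : (ModularFormClass.modularForm f : ModularForm (Gamma1 N) 1) = 0 :=
    ModularForm.eq_zero_of_neg_one_mem hmem' odd_one _
  have hcoe : (⇑f : UpperHalfPlane → ℂ) = 0 := by
    have := congrArg (fun F : ModularForm (Gamma1 N) 1 => (⇑F : UpperHalfPlane → ℂ)) h0
    simpa using this
  have h1 := hf.1
  unfold ModularFormClass.qCoeff at h1
  rw [hcoe, UpperHalfPlane.qExpansion_zero] at h1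
  simp at h1

/-- **(I1) integrality.** -/
theorem isIntegral_qCoeff' (N : ℕ) [NeZero N] (ε : DirichletCharacter ℂ N)
    (f : CuspForm (Gamma1 N) 1) (hf : IsFormalEigen N ε f) (p : ℕ) (hp : p.Prime)
    (hpN : ¬ p ∣ N) : IsIntegral ℤ (ModularFormClass.qCoeff f p) :=
  W2.isIntegral_qCoeff N (three_le_of_isFormalEigen hf) ε 1 f hf.1 hf.2 p hp hpN

/-- **(W2a) conjugate forms.** -/
theorem exists_conj' (N : ℕ) [NeZero N] (ε : DirichletCharacter ℂ N)
    (f : CuspForm (Gamma1 N) 1) (hf : IsFormalEigen N ε f) (σ : ℂ →+* ℂ) :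
    ∃ (ε' : DirichletCharacter ℂ N) (f' : CuspForm (Gamma1 N) 1), IsFormalEigen N ε' f' ∧
      ∀ n : ℕ, ModularFormClass.qCoeff f' n = σ (ModularFormClass.qCoeff f n) := by
  obtain ⟨g, hg, hg1, hgT⟩ :=
    W2.exists_conj_eigen N (three_le_of_isFormalEigen hf) ε 1 f hf.1 hf.2 σ
  exact ⟨ε.ringHomComp σ, g, ⟨hg1, hgT⟩, hg⟩

/-- An embedding of a number field `K ⊆ ℂ` into `ℂ` extends to an automorphism of `ℂ`. -/
theorem exists_ringEquiv_extending (K : IntermediateField ℚ ℂ) [FiniteDimensional ℚ K]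
    (τ : K →ₐ[ℚ] ℂ) : ∃ σ : ℂ ≃+* ℂ, ∀ x : K, σ (x : ℂ) = τ x := by
  have hK : Cardinal.mk K ≤ Cardinal.aleph0 := by
    have := Algebra.IsAlgebraic.cardinalMk_le_max ℚ K
    simpa using this
  exact S23.exists_ringEquiv_complex hK (algebraMap K ℂ) τ.toRingHom
    (algebraMap K ℂ).injective τ.toRingHom.injective

/-- **Conjugates.**  Finitely many formal eigenforms of the same level carry all the conjugates of all
the `a_p`. -/
theorem exists_conjugates' (N : ℕ) [NeZero N] (ε : DirichletCharacter ℂ N)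
    (f : CuspForm (Gamma1 N) 1) (hf : IsFormalEigen N ε f) :
    ∃ (r : ℕ) (εs : Fin r → DirichletCharacter ℂ N) (fs : Fin r → CuspForm (Gamma1 N) 1),
      (∀ i, IsFormalEigen N (εs i) (fs i)) ∧
      ∀ p : ℕ, p.Prime → ¬ p ∣ N → ∀ x : ℂ,
        Polynomial.aeval x (minpoly ℚ (ModularFormClass.qCoeff f p)) = 0 →
          ∃ i, x = ModularFormClass.qCoeff (fs i) p := by
  classical
  have hN := three_le_of_isFormalEigen hf
  set K : IntermediateField ℚ ℂ := IntermediateField.adjoin ℚ (W2.heckeGens ε f) with hK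
  have hfd : FiniteDimensional ℚ K := W2.finiteDimensional_heckeField N hN ε 1 f hf.1 hf.2
  let e : Fin (Fintype.card (K →ₐ[ℚ] ℂ)) ≃ (K →ₐ[ℚ] ℂ) := (Fintype.equivFin _).symm
  choose σ hσ using fun τ : K →ₐ[ℚ] ℂ => exists_ringEquiv_extending K τ
  choose εs fs hfs hcoef using fun i => exists_conj' N ε f hf (σ (e i) : ℂ →+* ℂ)
  refine ⟨_, εs, fs, hfs, fun p hp hpN x hx => ?_⟩
  have hmem : ModularFormClass.qCoeff f p ∈ K :=
    IntermediateField.subset_adjoin _ _ (Or.inr ⟨p, hp, hpN, rfl⟩)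
  have hmin : minpoly ℚ (⟨_, hmem⟩ : K) = minpoly ℚ (ModularFormClass.qCoeff f p) :=
    (IntermediateField.minpoly_eq (⟨_, hmem⟩ : K))
  obtain ⟨τ, hτ⟩ := IntermediateField.exists_algHom_of_splits_of_aeval
    (F := ℚ) (E := K) (K := ℂ)
    (fun s => ⟨Algebra.IsIntegral.isIntegral s, IsAlgClosed.splits _⟩)
    (x := (⟨_, hmem⟩ : K)) (y := x) (by rw [hmin]; exact hx)
  refine ⟨e.symm τ, ?_⟩
  rw [hcoef, Equiv.apply_symm_apply, ← hτ]
  exact (hσ τ ⟨_, hmem⟩).symm

end Fermat.Agent.S48.MF
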