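import Fermat.Agent.S48.R48.Dens

/-!
# S48 / MF / FinSet : Northcott + Rankin  ⟹  (I3), abstract form

`a p` algebraic integers all of whose conjugates are among `b i p` (`i : Fin r`), each `|b i p|²` of upper density
`≤ 1`.  Then outside a set of primes of arbitrarily small upper density the `a p` take finitely many values.
-/

set_option autoImplicit false

open Polynomial

namespace Fermat.Agent.S48.MF

open Fermat.Agent.S48.R48

/-- **Northcott.**  Algebraic integers of degree `≤ r` all of whose conjugates have norm `≤ B` form a finite set. -/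
theorem finite_northcott (r : ℕ) (B : ℝ) :
    {x : ℂ | IsIntegral ℤ x ∧ (minpoly ℚ x).natDegree ≤ r ∧
      ∀ z : ℂ, aeval z (minpoly ℚ x) = 0 → ‖z‖ ≤ B}.Finite := by
  classical
  let C := Nat.ceil (max B 1 ^ r * (r.choose (r / 2) : ℝ))
  have := bUnion_roots_finite (algebraMap ℤ ℂ) r (Set.finite_Icc (-C : ℤ) C)
  refine this.subset fun x hx => ?_
  simp_rw [Set.mem_iUnion]
  obtain ⟨hx1, hx2, hx3⟩ := hx
  have hmap := minpoly.isIntegrallyClosed_eq_field_fractions' ℚ hx1
  have hxQ : IsIntegral ℚ x := hx1.tower_top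
  refine ⟨minpoly ℤ x, ⟨?_, fun i => ?_⟩, mem_rootSet.2 ⟨minpoly.ne_zero hx1, minpoly.aeval ℤ x⟩⟩
  · rw [← (minpoly.monic hx1).natDegree_map (algebraMap ℤ ℚ), ← hmap]
    exact hx2
  rw [Set.mem_Icc, ← abs_le, ← @Int.cast_le ℝ]
  have hb : ‖((minpoly ℚ x).map (algebraMap ℚ ℂ)).coeff i‖ ≤ max B 1 ^ r * (r.choose (r / 2) : ℝ) := by
    refine coeff_bdd_of_roots_le (algebraMap ℚ ℂ) (minpoly.monic hxQ) (IsAlgClosed.splits _) hx2
      (fun z hz => ?_) i
    apply hx3
    rw [mem_roots (map_ne_zero (minpoly.ne_zero hxQ)), IsRoot.def, eval_map_algebraMap] at hz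
    exact hz
  refine (Eq.trans_le ?_ hb).trans (Nat.le_ceil _)
  rw [hmap, coeff_map, coeff_map, eq_intCast, eq_ratCast, Rat.cast_intCast, Complex.norm_intCast,
    Int.cast_abs]

/-- the degree is bounded by the number of candidates for the conjugates. -/
theorem natDegree_minpoly_le (x : ℂ) (hx : IsIntegral ℚ x) (r : ℕ) (c : Fin r → ℂ)
    (h : ∀ z : ℂ, aeval z (minpoly ℚ x) = 0 → ∃ i, z = c i) : (minpoly ℚ x).natDegree ≤ r := by
  classical
  have hsep : (minpoly ℚ x).Separable := (minpoly.irreducible hx).separable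
  have hcard : ((minpoly ℚ x).rootSet ℂ).toFinset.card = (minpoly ℚ x).natDegree := by
    have h1 := card_rootSet_eq_natDegree (K := ℂ) hsep (IsAlgClosed.splits _)
    rw [← h1, Set.toFinset_card]
  rw [← hcard]
  calc ((minpoly ℚ x).rootSet ℂ).toFinset.card ≤ (Finset.univ.image c).card := by
        apply Finset.card_le_card
        intro z hz
        rw [Set.mem_toFinset, mem_rootSet] at hz
        obtain ⟨i, rfl⟩ := h z hz.2
        exact Finset.mem_image_of_mem _ (Finset.mem_univ i)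
    _ ≤ (Finset.univ : Finset (Fin r)).card := Finset.card_image_le
    _ = r := by simp

/-- **(I3), abstract form.** -/
theorem exists_finset_abstract (good : ℕ → Prop) (a : ℕ → ℂ) (r : ℕ) (b : Fin r → ℕ → ℂ)
    (hint : ∀ p : ℕ, p.Prime → good p → IsIntegral ℤ (a p))
    (hconj : ∀ p : ℕ, p.Prime → good p → ∀ x : ℂ, aeval x (minpoly ℚ (a p)) = 0 → ∃ i, x = b i p)
    (hRK : ∀ i, UpperDens good (fun p => ‖b i p‖ ^ 2) 1) (η : ℝ) (hη : 0 < η) :
    ∃ X : Finset ℂ, UpperDens (fun p => good p ∧ a p ∉ X) (fun _ => 1) η := by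
  classical
  set c : ℝ := ((r : ℝ) + 1) / η with hc
  have hc0 : 0 < c := by positivity
  refine ⟨(finite_northcott r (Real.sqrt c)).toFinset, ?_⟩
  have h1 : UpperDens good (fun p => ∑ i : Fin r, c⁻¹ * ‖b i p‖ ^ 2) (∑ _i : Fin r, c⁻¹ * 1) :=
    upperDens_sum Finset.univ good (fun i p => c⁻¹ * ‖b i p‖ ^ 2) (fun _ => c⁻¹ * 1)
      (fun i _ => UpperDens.const_mul (hRK i) (inv_nonneg.mpr hc0.le))
  have h2 : (∑ _i : Fin r, c⁻¹ * 1) ≤ η := by
    rw [Finset.sum_const, Finset.card_univ, Fintype.card_fin, nsmul_eq_mul, mul_one, hc, inv_div]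
    rw [← mul_div_assoc, div_le_iff₀ (by positivity)]
    nlinarith
  refine UpperDens.mono (UpperDens.mono_const h1 h2) (fun p _ hp => hp.1) (fun _ _ _ => zero_le_one)
    (fun p _ _ => Finset.sum_nonneg fun i _ => by positivity) ?_
  rintro p hp ⟨hg, hX⟩
  rw [Set.Finite.mem_toFinset] at hX
  have hI := hint p hp hg
  have hdeg := natDegree_minpoly_le (a p) hI.tower_top r (fun i => b i p) (hconj p hp hg)
  have hex : ∃ z : ℂ, aeval z (minpoly ℚ (a p)) = 0 ∧ Real.sqrt c < ‖z‖ := by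
    by_contra hcon
    push Not at hcon
    exact hX ⟨hI, hdeg, hcon⟩
  obtain ⟨z, hz, hzc⟩ := hex
  obtain ⟨i, rfl⟩ := hconj p hp hg z hz
  have h3 : c < ‖b i p‖ ^ 2 := by
    have := Real.lt_sq_of_sqrt_lt hzc
    exact this
  have h4 : 1 ≤ c⁻¹ * ‖b i p‖ ^ 2 := by
    rw [inv_mul_eq_div, le_div_iff₀ hc0]
    linarith
  exact h4.trans (Finset.single_le_sum (f := fun i => c⁻¹ * ‖b i p‖ ^ 2)
    (fun j _ => by positivity) (Finset.mem_univ i))

end Fermat.Agent.S48.MF
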