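import Fermat.Agent.S48.RK.Upper
import Fermat.Agent.S48.MF.Conj
import Fermat.Agent.S48.MF.FinSet

/-!
# S48 / MF : arithmetic of the coefficients `a_p`

Blueprint: board #1226 (W0, H, W1, W2 and CONSEQUENCES).
-/

set_option autoImplicit false

open CongruenceSubgroup

namespace Fermat.Agent.S48.MF

/-- **(I1) integrality.** -/
theorem isIntegral_qCoeff (N : ℕ) [NeZero N] (ε : DirichletCharacter ℂ N)
    (f : CuspForm (Gamma1 N) 1) (hf : IsFormalEigen N ε f) (p : ℕ) (hp : p.Prime)
    (hpN : ¬ p ∣ N) : IsIntegral ℤ (ModularFormClass.qCoeff f p) :=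
  isIntegral_qCoeff' N ε f hf p hp hpN

/-- **(W2a) conjugate forms.** -/
theorem exists_conj (N : ℕ) [NeZero N] (ε : DirichletCharacter ℂ N)
    (f : CuspForm (Gamma1 N) 1) (hf : IsFormalEigen N ε f) (σ : ℂ →+* ℂ) :
    ∃ (ε' : DirichletCharacter ℂ N) (f' : CuspForm (Gamma1 N) 1), IsFormalEigen N ε' f' ∧
      ∀ n : ℕ, ModularFormClass.qCoeff f' n = σ (ModularFormClass.qCoeff f n) :=
  exists_conj' N ε f hf σ

/-- **(I2*)**: the Rankin bound for all conjugates. -/
theorem rankin_conj (N : ℕ) [NeZero N] (ε : DirichletCharacter ℂ N)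
    (f : CuspForm (Gamma1 N) 1) (hf : IsFormalEigen N ε f) (σ : ℂ →+* ℂ) :
    UpperDens (fun p => ¬ p ∣ N) (fun p => ‖σ (ModularFormClass.qCoeff f p)‖ ^ 2) 1 := by
  obtain ⟨ε', f', hf', h⟩ := exists_conj N ε f hf σ
  have := RK.rankin N ε' f' hf'
  simpa only [h] using this

/-- **Conjugates.**  Finitely many formal eigenforms of the same level carry all the conjugates of all
the `a_p`. -/
theorem exists_conjugates (N : ℕ) [NeZero N] (ε : DirichletCharacter ℂ N)
    (f : CuspForm (Gamma1 N) 1) (hf : IsFormalEigen N ε f) :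
    ∃ (r : ℕ) (εs : Fin r → DirichletCharacter ℂ N) (fs : Fin r → CuspForm (Gamma1 N) 1),
      (∀ i, IsFormalEigen N (εs i) (fs i)) ∧
      ∀ p : ℕ, p.Prime → ¬ p ∣ N → ∀ x : ℂ,
        Polynomial.aeval x (minpoly ℚ (ModularFormClass.qCoeff f p)) = 0 →
          ∃ i, x = ModularFormClass.qCoeff (fs i) p :=
  exists_conjugates' N ε f hf

/-- **(I3)**: outside a set of primes of arbitrarily small upper density the `a_p` take finitely many
values.  (From `isIntegral_qCoeff`, `exists_conjugates`, `RK.rankin` for each conjugate, and Northcott: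
`X = {x integral, degree ≤ r, all conjugates of absolute value ≤ √c}`, `η = r / c`.) -/
theorem exists_finset (N : ℕ) [NeZero N] (ε : DirichletCharacter ℂ N)
    (f : CuspForm (Gamma1 N) 1) (hf : IsFormalEigen N ε f) (η : ℝ) (hη : 0 < η) :
    ∃ X : Finset ℂ,
      UpperDens (fun p => ¬ p ∣ N ∧ ModularFormClass.qCoeff f p ∉ X) (fun _ => 1) η := by
  obtain ⟨r, εs, fs, hfs, hconj⟩ := exists_conjugates N ε f hf
  exact exists_finset_abstract (fun p => ¬ p ∣ N) (fun p => ModularFormClass.qCoeff f p) r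
    (fun i p => ModularFormClass.qCoeff (fs i) p)
    (fun p hp hpN => isIntegral_qCoeff N ε f hf p hp hpN) hconj
    (fun i => RK.rankin N (εs i) (fs i) (hfs i)) η hη

end Fermat.Agent.S48.MF
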